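import Fermat.Agent.S52.Interface

/-!
# S52, node C1: basic facts on the integral model `newCurve W n`

* `newCurve_c₄`, `newCurve_c₆`: the invariants of `newCurve W n` are `newC4 W n`, `newC6 W n`;
* `newCurve_reductionMod`: same reduction as `W` at every `p ∣ 30 Δ²`;
* `newCurve_Δ_ne_zero`;
* congruences for `Δ` and `c₄` modulo `30 Δ²` (and modulo any divisor of it).
-/

set_option autoImplicit false
open WeierstrassCurve WeierstrassCurve.Affine WeierstrassCurve.Affine.Point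

namespace Fermat.Agent.S52

theorem newCurve_c₄ (W : WeierstrassCurve ℤ) (n : ℤ) : (newCurve W n).c₄ = newC4 W n := by
  unfold newC4
  rw [famA_eq]
  unfold newCurve d4 d6 parS
  generalize famA1 W.c₄ (-W.c₆) (1728 * parM W n) = A
  generalize famB1 W.c₄ (-W.c₆) (1728 * parM W n) = B
  generalize parM W n = m
  simp only [WeierstrassCurve.c₄, WeierstrassCurve.b₂, WeierstrassCurve.b₄]
  ring

theorem newCurve_c₆ (W : WeierstrassCurve ℤ) (n : ℤ) : (newCurve W n).c₆ = newC6 W n := by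
  unfold newC6
  rw [famB_eq]
  unfold newCurve d4 d6 parS
  generalize famA1 W.c₄ (-W.c₆) (1728 * parM W n) = A
  generalize famB1 W.c₄ (-W.c₆) (1728 * parM W n) = B
  generalize parM W n = m
  simp only [WeierstrassCurve.c₆, WeierstrassCurve.b₂, WeierstrassCurve.b₄, WeierstrassCurve.b₆]
  ring

/-- `30 Δ²` divides `parM`. -/
theorem dvd_parM (W : WeierstrassCurve ℤ) (n : ℤ) : 30 * W.Δ ^ 2 ∣ parM W n :=
  Dvd.intro _ rfl

/-- `30 Δ²` divides the change of `a₄`. -/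
theorem dvd_d4 (W : WeierstrassCurve ℤ) (n : ℤ) : 30 * W.Δ ^ 2 ∣ d4 W n := by
  unfold d4
  exact Dvd.dvd.mul_right (Dvd.dvd.mul_left (dvd_parM W n) _) _

/-- `30 Δ²` divides the change of `a₆`. -/
theorem dvd_d6 (W : WeierstrassCurve ℤ) (n : ℤ) : 30 * W.Δ ^ 2 ∣ d6 W n := by
  unfold d6
  refine dvd_add ?_ ?_
  · exact Dvd.dvd.mul_right (Dvd.dvd.mul_right (Dvd.dvd.mul_left (dvd_parM W n) _) _) _
  · exact Dvd.dvd.mul_right (Dvd.dvd.mul_left (dvd_parM W n) _) _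

theorem newCurve_reductionMod (W : WeierstrassCurve ℤ) (n : ℤ) (p : ℕ)
    (hp : (p : ℤ) ∣ 30 * W.Δ ^ 2) : (newCurve W n).reductionMod p = W.reductionMod p := by
  have h4 : ((d4 W n : ℤ) : ZMod p) = 0 :=
    (ZMod.intCast_zmod_eq_zero_iff_dvd _ _).2 (hp.trans (dvd_d4 W n))
  have h6 : ((d6 W n : ℤ) : ZMod p) = 0 :=
    (ZMod.intCast_zmod_eq_zero_iff_dvd _ _).2 (hp.trans (dvd_d6 W n))
  unfold WeierstrassCurve.reductionMod newCurve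
  ext <;> simp [h4, h6]

/-- `Δ' ≡ Δ` modulo every `p ∣ 30 Δ²` (`p` need not be prime). -/
theorem newCurve_Δ_modEq (W : WeierstrassCurve ℤ) (n : ℤ) (p : ℕ)
    (hp : (p : ℤ) ∣ 30 * W.Δ ^ 2) : (newCurve W n).Δ ≡ W.Δ [ZMOD p] := by
  have h := congrArg WeierstrassCurve.Δ (newCurve_reductionMod W n p hp)
  unfold WeierstrassCurve.reductionMod at h
  rw [WeierstrassCurve.map_Δ, WeierstrassCurve.map_Δ] at h
  exact (ZMod.intCast_eq_intCast_iff _ _ _).1 h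

/-- `c₄' ≡ c₄` modulo every `p ∣ 30 Δ²`. -/
theorem newCurve_c₄_modEq (W : WeierstrassCurve ℤ) (n : ℤ) (p : ℕ)
    (hp : (p : ℤ) ∣ 30 * W.Δ ^ 2) : (newCurve W n).c₄ ≡ W.c₄ [ZMOD p] := by
  have h := congrArg WeierstrassCurve.c₄ (newCurve_reductionMod W n p hp)
  unfold WeierstrassCurve.reductionMod at h
  rw [WeierstrassCurve.map_c₄, WeierstrassCurve.map_c₄] at h
  exact (ZMod.intCast_eq_intCast_iff _ _ _).1 h

/-- `c₆' ≡ c₆` modulo every `p ∣ 30 Δ²`. -/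
theorem newCurve_c₆_modEq (W : WeierstrassCurve ℤ) (n : ℤ) (p : ℕ)
    (hp : (p : ℤ) ∣ 30 * W.Δ ^ 2) : (newCurve W n).c₆ ≡ W.c₆ [ZMOD p] := by
  have h := congrArg WeierstrassCurve.c₆ (newCurve_reductionMod W n p hp)
  unfold WeierstrassCurve.reductionMod at h
  rw [WeierstrassCurve.map_c₆, WeierstrassCurve.map_c₆] at h
  exact (ZMod.intCast_eq_intCast_iff _ _ _).1 h

/-- for `p ∣ 30 Δ²`: `p ∣ Δ'` iff `p ∣ Δ`. -/
theorem dvd_newCurve_Δ_iff (W : WeierstrassCurve ℤ) (n : ℤ) (p : ℕ)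
    (hp : (p : ℤ) ∣ 30 * W.Δ ^ 2) : (p : ℤ) ∣ (newCurve W n).Δ ↔ (p : ℤ) ∣ W.Δ :=
  (newCurve_Δ_modEq W n p hp).dvd_iff

/-- for `p ∣ 30 Δ²`: `p ∣ c₄'` iff `p ∣ c₄`. -/
theorem dvd_newCurve_c₄_iff (W : WeierstrassCurve ℤ) (n : ℤ) (p : ℕ)
    (hp : (p : ℤ) ∣ 30 * W.Δ ^ 2) : (p : ℤ) ∣ (newCurve W n).c₄ ↔ (p : ℤ) ∣ W.c₄ :=
  (newCurve_c₄_modEq W n p hp).dvd_iff

/-- `30 Δ²` divides `Δ' - Δ`. -/
theorem dvd_newCurve_Δ_sub (W : WeierstrassCurve ℤ) (n : ℤ) :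
    30 * W.Δ ^ 2 ∣ (newCurve W n).Δ - W.Δ := by
  have h := newCurve_Δ_modEq W n (30 * W.Δ ^ 2).natAbs (Int.natAbs_dvd.2 dvd_rfl)
  exact Int.natAbs_dvd.1 h.symm.dvd

theorem newCurve_Δ_ne_zero (W : WeierstrassCurve ℤ) (hΔ : W.Δ ≠ 0) (n : ℤ) :
    (newCurve W n).Δ ≠ 0 := by
  intro h0
  have h := dvd_newCurve_Δ_sub W n
  rw [h0, zero_sub, dvd_neg] at h
  obtain ⟨k, hk⟩ := h
  have h1 : W.Δ * (30 * W.Δ * k) = W.Δ * 1 := by
    rw [mul_one]; conv_rhs => rw [hk]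
    ring
  have h2 : 30 * W.Δ * k = 1 := mul_left_cancel₀ hΔ h1
  have h3 : (30 : ℤ) ∣ 1 := ⟨W.Δ * k, by rw [← h2]; ring⟩
  omega

end Fermat.Agent.S52
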