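import Fermat.Agent.S52.Interface

/-!
# S52, bridge: general versus short Weierstrass model over a field in which `6` is invertible

`(x, y) ↦ (36 x + 3 b₂, 108 (2 y + a₁ x + a₃))` is a bijection from the nonsingular points of any
Weierstrass cubic `V` (possibly singular) to those of `y² = x³ - 27 c₄ x - 54 c₆`.
(Task S52-C2, helper129.)
-/

set_option autoImplicit false
open WeierstrassCurve WeierstrassCurve.Affine WeierstrassCurve.Affine.Point

namespace Fermat.Agent.S52

section Bridge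

variable {F : Type*} [Field F] (V : WeierstrassCurve F)

/-- the `x`-coordinate of the image point on the short model. -/
def brX (x : F) : F := 36 * x + 3 * V.b₂

/-- the `y`-coordinate of the image point on the short model. -/
def brY (x y : F) : F := 108 * (2 * y + V.a₁ * x + V.a₃)

theorem bridge_equation (h2 : (2 : F) ≠ 0) (h3 : (3 : F) ≠ 0) (x y : F) :
    (shortW V.c₄ V.c₆).toAffine.Equation (brX V x) (brY V x y) ↔ V.toAffine.Equation x y := by
  rw [equation_iff', equation_iff']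
  have key : brY V x y ^ 2 + (shortW V.c₄ V.c₆).a₁ * brX V x * brY V x y
        + (shortW V.c₄ V.c₆).a₃ * brY V x y
        - (brX V x ^ 3 + (shortW V.c₄ V.c₆).a₂ * brX V x ^ 2 + (shortW V.c₄ V.c₆).a₄ * brX V x
          + (shortW V.c₄ V.c₆).a₆)
      = 2 ^ 6 * 3 ^ 6 * (y ^ 2 + V.a₁ * x * y + V.a₃ * y
          - (x ^ 3 + V.a₂ * x ^ 2 + V.a₄ * x + V.a₆)) := by
    simp only [shortW, brX, brY, WeierstrassCurve.c₄, WeierstrassCurve.c₆, WeierstrassCurve.b₂,
      WeierstrassCurve.b₄, WeierstrassCurve.b₆]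
    ring
  rw [key]
  have hne : (2 : F) ^ 6 * 3 ^ 6 ≠ 0 := mul_ne_zero (pow_ne_zero _ h2) (pow_ne_zero _ h3)
  rw [mul_eq_zero]
  exact ⟨fun h => h.resolve_left hne, Or.inr⟩

theorem bridge_nonsingular (h2 : (2 : F) ≠ 0) (h3 : (3 : F) ≠ 0) (x y : F) :
    (shortW V.c₄ V.c₆).toAffine.Nonsingular (brX V x) (brY V x y) ↔
      V.toAffine.Nonsingular x y := by
  rw [nonsingular_iff', nonsingular_iff', bridge_equation V h2 h3]
  refine and_congr_right fun _ => ?_
  have k1 : (shortW V.c₄ V.c₆).a₁ * brY V x y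
        - (3 * brX V x ^ 2 + 2 * (shortW V.c₄ V.c₆).a₂ * brX V x + (shortW V.c₄ V.c₆).a₄)
      = 2 ^ 4 * 3 ^ 4 * (V.a₁ * y - (3 * x ^ 2 + 2 * V.a₂ * x + V.a₄))
        - 2 ^ 3 * 3 ^ 4 * V.a₁ * (2 * y + V.a₁ * x + V.a₃) := by
    simp only [shortW, brX, brY, WeierstrassCurve.c₄, WeierstrassCurve.c₆, WeierstrassCurve.b₂,
      WeierstrassCurve.b₄, WeierstrassCurve.b₆]
    ring
  have k2 : 2 * brY V x y + (shortW V.c₄ V.c₆).a₁ * brX V x + (shortW V.c₄ V.c₆).a₃
      = 2 ^ 3 * 3 ^ 3 * (2 * y + V.a₁ * x + V.a₃) := by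
    simp only [shortW, brX, brY]
    ring
  rw [k1, k2]
  have hne1 : (2 : F) ^ 4 * 3 ^ 4 ≠ 0 := mul_ne_zero (pow_ne_zero _ h2) (pow_ne_zero _ h3)
  have hne2 : (2 : F) ^ 3 * 3 ^ 3 ≠ 0 := mul_ne_zero (pow_ne_zero _ h2) (pow_ne_zero _ h3)
  by_cases hη : 2 * y + V.a₁ * x + V.a₃ = 0
  · rw [hη, mul_zero, mul_zero, sub_zero]
    simp only [ne_eq, not_true_eq_false, or_false, mul_eq_zero, hne1, false_or]
  · have : (2 : F) ^ 3 * 3 ^ 3 * (2 * y + V.a₁ * x + V.a₃) ≠ 0 := mul_ne_zero hne2 hη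
    simp only [ne_eq, this, hη, not_false_eq_true, or_true]

/-- the bridge map on points. -/
def bridgeMap (h2 : (2 : F) ≠ 0) (h3 : (3 : F) ≠ 0) :
    V.toAffine.Point → (shortW V.c₄ V.c₆).toAffine.Point
  | .zero => .zero
  | .some x y h => .some (brX V x) (brY V x y) ((bridge_nonsingular V h2 h3 x y).mpr h)

theorem bridgeMap_bijective (h2 : (2 : F) ≠ 0) (h3 : (3 : F) ≠ 0) :
    Function.Bijective (bridgeMap V h2 h3) := by
  have h36 : (36 : F) ≠ 0 := by
    have : (36 : F) = 2 ^ 2 * 3 ^ 2 := by norm_num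
    rw [this]
    exact mul_ne_zero (pow_ne_zero _ h2) (pow_ne_zero _ h3)
  have h108 : (108 : F) ≠ 0 := by
    have : (108 : F) = 2 ^ 2 * 3 ^ 3 := by norm_num
    rw [this]
    exact mul_ne_zero (pow_ne_zero _ h2) (pow_ne_zero _ h3)
  constructor
  · rintro (_ | ⟨x₁, y₁, hh₁⟩) (_ | ⟨x₂, y₂, hh₂⟩) h <;>
      simp only [bridgeMap, Point.some.injEq, reduceCtorEq] at h
    · rfl
    · obtain ⟨hx, hy⟩ := h
      have hx' : x₁ = x₂ := by
        unfold brX at hx
        exact mul_left_cancel₀ h36 (add_right_cancel hx)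
      subst hx'
      have hy' : y₁ = y₂ := by
        unfold brY at hy
        have := mul_left_cancel₀ h108 hy
        exact mul_left_cancel₀ h2 (add_right_cancel (add_right_cancel this))
      subst hy'
      rfl
  · rintro (_ | ⟨X, Y, hh⟩)
    · exact ⟨.zero, rfl⟩
    · set x : F := (X - 3 * V.b₂) / 36 with hx
      set y : F := (Y / 108 - V.a₁ * x - V.a₃) / 2 with hy
      have hX : brX V x = X := by
        unfold brX
        rw [hx]
        field_simp
        ring
      have hY : brY V x y = Y := by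
        unfold brY
        rw [hy]
        field_simp
        ring
      have hns : V.toAffine.Nonsingular x y := by
        rw [← bridge_nonsingular V h2 h3, hX, hY]
        exact hh
      refine ⟨.some x y hns, ?_⟩
      simp only [bridgeMap, Point.some.injEq]
      exact ⟨hX, hY⟩

/-- the bridge as an equivalence of point sets. -/
noncomputable def bridgeEquiv (h2 : (2 : F) ≠ 0) (h3 : (3 : F) ≠ 0) :
    V.toAffine.Point ≃ (shortW V.c₄ V.c₆).toAffine.Point :=
  Equiv.ofBijective _ (bridgeMap_bijective V h2 h3)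

theorem bridge_card_of_field (h2 : (2 : F) ≠ 0) (h3 : (3 : F) ≠ 0) :
    V.card = (shortW V.c₄ V.c₆).card :=
  Nat.card_congr (bridgeEquiv V h2 h3)

end Bridge

theorem bridge_card (ℓ : ℕ) [Fact ℓ.Prime] (hℓ : 5 ≤ ℓ) (V : WeierstrassCurve (ZMod ℓ)) :
    V.card = (shortW V.c₄ V.c₆).card := by
  have hne : ∀ n : ℕ, 0 < n → n < ℓ → ((n : ℕ) : ZMod ℓ) ≠ 0 := by
    intro n h0 hn h
    rw [ZMod.natCast_eq_zero_iff] at h
    exact absurd (Nat.le_of_dvd h0 h) (not_le.mpr hn)
  refine bridge_card_of_field V ?_ ?_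
  · exact_mod_cast hne 2 (by norm_num) (by omega)
  · exact_mod_cast hne 3 (by norm_num) (by omega)

end Fermat.Agent.S52
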