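import Fermat.Agent.S52.Model.Basic
import Fermat.Agent.S52.Klein.ExistsUV
import Fermat.Agent.S52.Klein.LineH
import Fermat.Agent.S52.Klein.LineT

/-!
# S52, node C: semistability of the integral model `newCurve W n`
-/

set_option autoImplicit false
open WeierstrassCurve

namespace Fermat.Agent.S52

/-- `kH` and `kT` have no common zero when `30 ≠ 0`. -/
theorem eq_zero_of_kH_kT {k : Type*} [Field k] (h30 : (30 : k) ≠ 0) (u v : k)
    (h1 : kH u v = 0) (h2 : kT u v = 0) : u = 0 ∧ v = 0 := by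
  rw [kH_eq_kHa] at h1
  rw [kT_eq_kTa] at h2
  obtain ⟨ha, hb⟩ := eq_zero_of_kHa_kTa h30 _ _ h1 h2
  exact ⟨pow_eq_zero_iff (by norm_num) |>.1 ha, pow_eq_zero_iff (by norm_num) |>.1 hb⟩

/-- `famA` and `famB` have no common zero in `t` when `H³ ≠ T²` (algebraically closed case). -/
theorem fam_no_common_zero_aux {k : Type*} [Field k] [IsAlgClosed k] (h30 : (30 : k) ≠ 0)
    (H T t : k) (h : H ^ 3 - T ^ 2 ≠ 0) (hA : famA H T t = 0) (hB : famB H T t = 0) : False := by
  obtain ⟨u, v, rfl, rfl⟩ := exists_uv h30 H T h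
  rw [← kH_line] at hA
  rw [← kT_line] at hB
  obtain ⟨hU, hV⟩ := eq_zero_of_kH_kT h30 _ _ hA hB
  have h2 : (2 : k) ≠ 0 := fun h => h30 (by linear_combination 15 * h)
  have h3 : (3 : k) ≠ 0 := fun h => h30 (by linear_combination 10 * h)
  have hf : ((2 : k) ^ 2 * 3) * kf u v = 0 := by
    unfold lineU at hU
    unfold lineV at hV
    linear_combination (-1 : k) * euler_kf u v + kfu u v * hU + kfv u v * hV
  have hf0 : kf u v = 0 :=
    (mul_eq_zero.1 hf).resolve_left (mul_ne_zero (pow_ne_zero _ h2) h3)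
  apply h
  rw [klein_relation, hf0]
  ring

/-- `famA` and `famB` have no common zero in `t` when `H³ ≠ T²` and `30 ≠ 0`. -/
theorem fam_no_common_zero {k : Type*} [Field k] (h30 : (30 : k) ≠ 0)
    (H T t : k) (h : H ^ 3 - T ^ 2 ≠ 0) (hA : famA H T t = 0) (hB : famB H T t = 0) : False := by
  let f : k →+* AlgebraicClosure k := algebraMap k (AlgebraicClosure k)
  have hf : Function.Injective f := f.injective
  refine fam_no_common_zero_aux (k := AlgebraicClosure k) ?_ (f H) (f T) (f t) ?_ ?_ ?_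
  · intro h0
    apply h30
    apply hf
    rw [map_ofNat, h0, map_zero]
  · intro h0
    apply h
    apply hf
    rw [map_sub, map_pow, map_pow, h0, map_zero]
  · rw [← map_famA, hA, map_zero]
  · rw [← map_famB, hB, map_zero]

set_option linter.unusedVariables false in
theorem newCurve_semistable (W : WeierstrassCurve ℤ) (hΔ : W.Δ ≠ 0) (hW : W.IsSemistableModel)
    (n : ℤ) : (newCurve W n).IsSemistableModel := by
  intro p hp hpΔ hpc
  by_cases hdiv : (p : ℤ) ∣ 30 * W.Δ ^ 2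
  · exact hW p hp ((dvd_newCurve_Δ_iff W n p hdiv).1 hpΔ) ((dvd_newCurve_c₄_iff W n p hdiv).1 hpc)
  have : Fact p.Prime := ⟨hp⟩
  have hpZ : Prime (p : ℤ) := Nat.prime_iff_prime_int.1 hp
  let f : ℤ →+* ZMod p := Int.castRingHom (ZMod p)
  have hf : ∀ x : ℤ, f x = 0 ↔ (p : ℤ) ∣ x := fun x => ZMod.intCast_zmod_eq_zero_iff_dvd x p
  have h30 : ¬ (p : ℤ) ∣ 30 := fun h => hdiv (Dvd.dvd.mul_right h _)
  have hpΔ0 : ¬ (p : ℤ) ∣ W.Δ := fun h => hdiv (Dvd.dvd.mul_left (Dvd.dvd.pow h (by norm_num)) _)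
  have h1728 : ¬ (p : ℤ) ∣ 1728 := by
    intro h
    have h' : (p : ℤ) ∣ 30 ^ 6 := h.trans ⟨421875, by norm_num⟩
    exact h30 (hpZ.dvd_of_dvd_pow h')
  refine fam_no_common_zero (k := ZMod p) ?_ (f W.c₄) (f (-W.c₆)) (f (parS W n)) ?_ ?_ ?_
  · intro h0
    apply h30
    rw [← hf, map_ofNat, h0]
  · intro h0
    have : f (1728 * W.Δ) = 0 := by
      rw [W.c_relation, map_sub, map_pow, map_pow, ← h0, map_neg]
      ring
    rcases hpZ.dvd_or_dvd ((hf _).1 this) with h | h
    · exact h1728 h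
    · exact hpΔ0 h
  · rw [← map_famA, hf]
    have := newCurve_c₄ W n
    unfold newC4 at this
    rw [← this]
    exact hpc
  · rw [← map_famB, hf]
    have h6 := newCurve_c₆ W n
    unfold newC6 at h6
    have h6' : famB W.c₄ (-W.c₆) (parS W n) = -(newCurve W n).c₆ := by rw [h6, neg_neg]
    rw [h6', dvd_neg]
    apply hpZ.dvd_of_dvd_pow (n := 2)
    have hrel := (newCurve W n).c_relation
    have : (newCurve W n).c₆ ^ 2 = (newCurve W n).c₄ ^ 3 - 1728 * (newCurve W n).Δ := by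
      rw [hrel]; ring
    rw [this]
    exact dvd_sub (Dvd.dvd.pow hpc (by norm_num)) (Dvd.dvd.mul_left hpΔ _)

end Fermat.Agent.S52
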